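import Fermat.Agent.FF19.Q.Interface
import Fermat.Agent.S18.QPlace

/-!
# FF19 / Q : FFQ-CUSP, the cusp `∞` : a place of `FF N` whose `ord` is the `q`-order (helper21)
-/

set_option autoImplicit false

noncomputable section

namespace Fermat.Agent.FF19.Q

open AlgebraicCurve ModularCurve
open Fermat.Agent.RED (Qb FF Pl)

section Abs

variable {k : Type*} [Field k] {E : IntermediateField k (LaurentSeries k)}

theorem Cusp_order_zpow (x : LaurentSeries k) (hx : x ≠ 0) (n : ℤ) :
    (x ^ n).order = n * x.order := by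
  have hpow : ∀ m : ℕ, (x ^ m).order = m * x.order := by
    intro m
    induction m with
    | zero => simp
    | succ m ih =>
      rw [pow_succ, HahnSeries.order_mul (pow_ne_zero _ hx) hx, ih]
      push_cast
      ring
  obtain ⟨m, rfl | rfl⟩ := n.eq_nat_or_neg
  · rw [zpow_natCast, hpow]
  · rw [zpow_neg, zpow_natCast, S18.order_inv' _ (pow_ne_zero _ hx), hpow]
    ring

/-- the order function of the `q`-adic place is a multiple of the `q`-order. -/
theorem Cusp_ord_eq_mul (t : E) (ht : (t : LaurentSeries k).order = 1) (f : E) (hf : f ≠ 0) :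
    (S18.qPlace t ht).ord f = (f : LaurentSeries k).order * (S18.qPlace t ht).ord t := by
  have ht0 : t ≠ 0 := by
    rintro rfl
    rw [IntermediateField.coe_zero, HahnSeries.order_zero] at ht
    exact zero_ne_one ht
  have ht0' : (t : LaurentSeries k) ≠ 0 := fun h => ht0 (Subtype.ext h)
  have hf0' : (f : LaurentSeries k) ≠ 0 := fun h => hf (Subtype.ext h)
  obtain ⟨n, hn⟩ : ∃ n : ℤ, n = (f : LaurentSeries k).order := ⟨_, rfl⟩
  obtain ⟨u, hu⟩ : ∃ u : E, u = f * t ^ (-n) := ⟨_, rfl⟩
  have hu0 : u ≠ 0 := by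
    rw [hu]
    exact mul_ne_zero hf (zpow_ne_zero _ ht0)
  have hcoe : (u : LaurentSeries k) = (f : LaurentSeries k) * (t : LaurentSeries k) ^ (-n) := by
    rw [hu]
    exact map_mul (algebraMap E (LaurentSeries k)) _ _ |>.trans
      (congrArg _ (map_zpow₀ (algebraMap E (LaurentSeries k)) t (-n)))
  have hord : (u : LaurentSeries k).order = 0 := by
    rw [hcoe, HahnSeries.order_mul hf0' (zpow_ne_zero _ ht0'), Cusp_order_zpow _ ht0', ht, ← hn]
    ring
  have h1 : u ∈ (S18.qPlace t ht).toValuationSubring := by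
    show u ∈ S18.qValSubring E
    rw [S18.mem_qValSubring, hord]
  have h2 : u⁻¹ ∈ (S18.qPlace t ht).toValuationSubring := by
    show u⁻¹ ∈ S18.qValSubring E
    rw [S18.mem_qValSubring]
    have : ((u⁻¹ : E) : LaurentSeries k) = (u : LaurentSeries k)⁻¹ := rfl
    rw [this, S18.order_inv' _ (fun h => hu0 (Subtype.ext h)), hord]
    simp
  have h3 := S24.ord_nonneg_of_mem _ h1
  have h4 := S24.ord_nonneg_of_mem _ h2
  rw [Place.ord_inv] at h4
  have h5 : (S18.qPlace t ht).ord u = 0 := le_antisymm (by omega) h3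
  rw [hu, Place.ord_mul _ hf (zpow_ne_zero _ ht0), Place.ord_zpow] at h5
  rw [← hn]
  linarith

/-- the order function of the `q`-adic place is the `q`-order. -/
theorem Cusp_ord_eq (t : E) (ht : (t : LaurentSeries k).order = 1) (f : E) (hf : f ≠ 0) :
    (S18.qPlace t ht).ord f = (f : LaurentSeries k).order := by
  have he : 0 < (S18.qPlace t ht).ord t := S18.qPlace_ord_pos t ht t (by rw [ht]; exact one_pos)
  obtain ⟨π, hπ⟩ := S24.exists_ord_eq_one (S18.qPlace t ht)
  have hπ0 : π ≠ 0 := by
    rintro rfl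
    rw [Place.ord_zero] at hπ
    exact zero_ne_one hπ
  have h1 := Cusp_ord_eq_mul t ht π hπ0
  rw [hπ] at h1
  have h2 : (S18.qPlace t ht).ord t = 1 :=
    Int.eq_one_of_mul_eq_one_left he.le h1.symm
  rw [Cusp_ord_eq_mul t ht f hf, h2, mul_one]

end Abs

theorem Cusp_order_j : (S24.jBarSeries 1).order = -1 := by
  have hc : (S24.jBarSeries 1).coeff (-1) = 1 := by
    simp [S24.jBarSeries, ModularCurve.qExpand_one_apply]
  have hne : S24.jBarSeries 1 ≠ 0 := by
    intro h
    rw [h] at hc
    simp at hc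
  apply le_antisymm
  · apply HahnSeries.order_le_of_coeff_ne_zero
    rw [hc]
    exact one_ne_zero
  · by_contra hlt
    have h1 : (S24.jBarSeries 1).coeff (S24.jBarSeries 1).order ≠ 0 :=
      fun h => hne (HahnSeries.coeff_order_eq_zero.mp h)
    apply h1
    have h2 : (S24.jBarSeries 1).order < -1 := not_le.mp hlt
    simp only [S24.jBarSeries, ModularCurve.qExpand_one_apply, coeffEmb_coeff]
    rw [coeff_jq_of_lt (by simpa [S24.jBarSeries, ModularCurve.qExpand_one_apply] using h2), map_zero]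

/-- **FFQ-CUSP**. -/
theorem stmt_Cusp : Stmt_Cusp := by
  intro N _
  have ht : (((S24.jF N)⁻¹ : FF N) : LaurentSeries Qb).order = 1 := by
    have h : (((S24.jF N)⁻¹ : FF N) : LaurentSeries Qb) = (S24.jBarSeries 1)⁻¹ := rfl
    have hne : S24.jBarSeries 1 ≠ 0 := by
      intro h0
      have := Cusp_order_j
      rw [h0, HahnSeries.order_zero] at this
      omega
    rw [h, S18.order_inv' _ hne, Cusp_order_j]
    rfl
  exact ⟨S18.qPlace _ ht, fun f hf => Cusp_ord_eq _ ht f hf⟩

end Fermat.Agent.FF19.Q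

end
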