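import Fermat.Agent.FF19.Q.Interface
import Fermat.Agent.FF19.Q.Cusp
import Fermat.Agent.S36.Base.RootL

/-!
# FF19 / Q : FFQ-CORE, the degree count
-/

set_option autoImplicit false
set_option linter.style.haveILetI false

noncomputable section

namespace Fermat.Agent.FF19.Q

open AlgebraicCurve ModularCurve Polynomial IntermediateField
open Fermat.Agent.RED (Qb GQ FF Pl gal)

/-- an `ℓ`-th root of `h(q^r)` lies in `ℚ̄((q^r))` if `ℓ ∣ ord_q h`. -/
theorem Core_root (r ℓ : ℕ) [NeZero r] (hℓ : ℓ ≠ 0) (h g : LaurentSeries Qb) (hh : h ≠ 0)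
    (hd : (ℓ : ℤ) ∣ h.order) (hg : g ^ ℓ = qExpand Qb r h) :
    ∃ G₁ : LaurentSeries Qb, g = qExpand Qb r G₁ := by
  obtain ⟨c, hc⟩ := IsAlgClosed.exists_pow_nat_eq h.leadingCoeff (Nat.pos_of_ne_zero hℓ)
  obtain ⟨h₁, hh₁⟩ := S36.Base.stmt_RootL Qb ℓ h hℓ hh hd ⟨c, hc⟩
  have hh₁0 : h₁ ≠ 0 := by
    rintro rfl
    rw [zero_pow hℓ] at hh₁
    exact hh hh₁.symm
  set G := qExpand Qb r h₁ with hG
  have hG0 : G ≠ 0 := by
    intro h0
    exact hh₁0 (qExpand_injective r (by rw [← hG, h0, map_zero]))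
  have hGp : G ^ ℓ = g ^ ℓ := by rw [hG, ← map_pow, hh₁, hg]
  have h1 : (g / G) ^ ℓ = 1 := by rw [div_pow, hGp, div_self (pow_ne_zero _ (by
    intro h0
    rw [h0, zero_pow hℓ] at hGp
    exact pow_ne_zero _ hG0 hGp))]
  haveI : NeZero ℓ := ⟨hℓ⟩
  obtain ⟨ζ₀, hζ₀⟩ := HasEnoughRootsOfUnity.exists_primitiveRoot Qb ℓ
  have hζ : IsPrimitiveRoot (HahnSeries.C ζ₀ : LaurentSeries Qb) ℓ :=
    hζ₀.map_of_injective (f := (HahnSeries.C : Qb →+* LaurentSeries Qb)) HahnSeries.C_injective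
  obtain ⟨i, -, hi⟩ := hζ.eq_pow_of_pow_eq_one h1
  refine ⟨HahnSeries.C (ζ₀ ^ i) * h₁, ?_⟩
  rw [map_mul, qExpand_C, map_pow, hi, ← hG, div_mul_cancel₀ _ hG0]

theorem stmt_Core (hI : Stmt_Ind) (hD : Stmt_Deg) : Stmt_Core := by
  intro N r ℓ _ _ hr hℓ h g hh hd hg
  by_contra hcon
  have hcon' : ∀ b : FF N, b ^ ℓ ≠ h := fun b hb => hcon ⟨b, hb⟩
  obtain ⟨hfin, hdeg⟩ := hD N r hr
  letI := algebraAlong (heckeBetaBar Qb N r)
  haveI : Module.Finite (FF N) (FF (N * r)) := hfin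
  have hdeg' : Module.finrank (FF N) (FF (N * r)) ≤ r + 1 := hdeg
  -- (1) the powers of `g`
  have hirr : Irreducible (X ^ ℓ - C h : (FF N)[X]) := X_pow_sub_C_irreducible_of_prime hℓ hcon'
  have hroot : aeval g (X ^ ℓ - C h : (FF N)[X]) = 0 := by
    rw [map_sub, map_pow, aeval_X, aeval_C, hg]
    exact sub_self _
  have hmin : X ^ ℓ - C h = minpoly (FF N) g :=
    minpoly.eq_of_irreducible_of_monic hirr hroot (monic_X_pow_sub_C h hℓ.ne_zero)
  have hnd : (minpoly (FF N) g).natDegree = ℓ := by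
    rw [← hmin, natDegree_X_pow_sub_C]
  have hli : LinearIndependent (FF N) fun a : Fin ℓ => g ^ (a : ℕ) := by
    have := linearIndependent_pow (K := FF N) g
    rw [hnd] at this
    exact this
  -- (2) `g ∈ ℚ̄((q^r))`
  obtain ⟨G₁, hG₁⟩ := Core_root r ℓ hℓ.ne_zero (h : LaurentSeries Qb) (g : LaurentSeries Qb)
    (by intro h0; exact hh (Subtype.ext h0)) hd (by
      have := congrArg (fun z : FF (N * r) => (z : LaurentSeries Qb)) hg
      simpa using this)
  -- (3) the family `g ^ a * j ^ b`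
  have hfam : LinearIndependent (FF N)
      fun ab : Fin ℓ × Fin r => g ^ (ab.1 : ℕ) * S24.jF (N * r) ^ (ab.2 : ℕ) := by
    rw [Fintype.linearIndependent_iff]
    intro c hc
    have hc' : ∑ b : Fin r, qExpand Qb r (∑ a : Fin ℓ, (c (a, b) : LaurentSeries Qb) * G₁ ^ (a : ℕ))
        * (S24.jBarSeries 1) ^ (b : ℕ) = 0 := by
      have h0 := congrArg (fun z : FF (N * r) => (z : LaurentSeries Qb)) hc
      simp only [ZeroMemClass.coe_zero] at h0
      rw [← h0, Fintype.sum_prod_type_right]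
      rw [← (modularFunctionFieldBar (N * r)).coe_val, map_sum]
      refine Finset.sum_congr rfl fun b _ => ?_
      rw [map_sum, map_sum, Finset.sum_mul]
      refine Finset.sum_congr rfl fun a _ => ?_
      rw [map_mul, map_pow, ← hG₁]
      show _ = ((heckeBetaBar Qb N r (c (a, b)) : FF (N * r)) : LaurentSeries Qb) *
        ((g : LaurentSeries Qb) ^ (a : ℕ) * (S24.jBarSeries 1) ^ (b : ℕ))
      rw [coe_heckeBetaBar, mul_assoc]
    have h1 := hI Qb r (S24.jBarSeries 1) Cusp_order_j _ hc'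
    intro ab
    obtain ⟨a, b⟩ := ab
    have h2 : ∑ a : Fin ℓ, c (a, b) • g ^ (a : ℕ) = 0 := by
      apply Subtype.ext
      have h3 := congrArg (qExpand Qb r) (h1 b)
      rw [map_zero, map_sum] at h3
      rw [ZeroMemClass.coe_zero, ← h3, ← (modularFunctionFieldBar (N * r)).coe_val, map_sum]
      refine Finset.sum_congr rfl fun a _ => ?_
      rw [map_mul, map_pow, ← hG₁]
      show ((heckeBetaBar Qb N r (c (a, b)) : FF (N * r)) : LaurentSeries Qb) *
        (g : LaurentSeries Qb) ^ (a : ℕ) = _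
      rw [coe_heckeBetaBar]
    exact Fintype.linearIndependent_iff.mp hli (fun a => c (a, b)) h2 a
  -- (4) the count
  have hcard := hfam.fintype_card_le_finrank
  rw [Fintype.card_prod, Fintype.card_fin, Fintype.card_fin] at hcard
  have h2ℓ := hℓ.two_le
  have h2r := hr.two_le
  nlinarith

end Fermat.Agent.FF19.Q
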