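import Fermat.Agent.FF19.Q.Interface
import Fermat.Agent.RED.DegLe

/-!
# FF19 / Q : DEG (helper89): `[FF (N r) : β (FF N)] ≤ r + 1` for all `N`.

Copy of `RED.DEGLE_top_le`, `RED.stmt_DEGle` without the hypothesis `¬ r ∣ N`
(only `stepDeg r N ≤ r + 1` is used).
-/

set_option autoImplicit false
set_option linter.style.haveILetI false

noncomputable section

namespace Fermat.Agent.FF19.Q

open AlgebraicCurve ModularCurve Polynomial IntermediateField
open Fermat.Agent.S28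
open Fermat.Agent.RED (Qb FF DEGLE_span DEGLE_cZ_mem_bar DEGLE_jBarSeries_eq DEGLE_Ej_mem)

/-- `1, j, …, j ^ ℓ` span `FF (N ℓ)` over `β (FF N)`. -/
theorem Deg_top_le (N ℓ : ℕ) [NeZero N] [NeZero ℓ] (hℓ : ℓ.Prime) :
    letI := algebraAlong (heckeBetaBar Qb N ℓ)
    (⊤ : Submodule (FF N) (FF (N * ℓ))) ≤
      Submodule.span (FF N) (Set.range fun i : Fin (ℓ + 1) => S24.jF (N * ℓ) ^ (i : ℕ)) := by
  letI := algebraAlong (heckeBetaBar Qb N ℓ)
  have hN : 0 < N := Nat.pos_of_ne_zero (NeZero.ne N)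
  obtain ⟨ι, hι, b, hb1, hb2⟩ := DEGLE_span N ℓ hN hℓ
  have hsd : stepDeg ℓ N ≤ ℓ + 1 := by
    rw [stepDeg]
    split_ifs <;> omega
  have key : ∀ x : LaurentSeries Qb,
      x ∈ Submodule.span (Ej Qb (N * ℓ)) (Set.range fun i => cZ Qb (nextFam ℓ N b i)) →
      ∃ z : FF (N * ℓ), z ∈ Submodule.span (FF N)
        (Set.range fun i : Fin (ℓ + 1) => S24.jF (N * ℓ) ^ (i : ℕ)) ∧
        (z : LaurentSeries Qb) = x := by
    intro x hx
    induction hx using Submodule.span_induction with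
    | mem x hx =>
      obtain ⟨⟨i, y⟩, rfl⟩ := hx
      refine ⟨(⟨cZ Qb (b y), DEGLE_cZ_mem_bar hN (hb1 y)⟩ : FF N) •
        S24.jF (N * ℓ) ^ (i : ℕ), Submodule.smul_mem _ _
          (Submodule.subset_span ⟨⟨i, lt_of_lt_of_le i.2 hsd⟩, rfl⟩), ?_⟩
      show qExpand Qb ℓ (cZ Qb (b y)) * (S24.jBarSeries 1) ^ (i : ℕ) =
        cZ Qb (nextFam ℓ N b (i, y))
      rw [tower_coeffMap_nextFam, nextFam, DEGLE_jBarSeries_eq, jd, Vq_eq, Vq_eq,
        qExpand_one_apply, mul_comm]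
    | zero => exact ⟨0, Submodule.zero_mem _, rfl⟩
    | add x y _ _ hx hy =>
      obtain ⟨z, hz, rfl⟩ := hx
      obtain ⟨w, hw, rfl⟩ := hy
      exact ⟨z + w, Submodule.add_mem _ hz hw, rfl⟩
    | smul r x _ hx =>
      obtain ⟨z, hz, rfl⟩ := hx
      obtain ⟨u, hu⟩ := DEGLE_Ej_mem N ℓ r.2
      refine ⟨u • z, Submodule.smul_mem _ _ hz, ?_⟩
      show ((heckeBetaBar Qb N ℓ u : FF (N * ℓ)) : LaurentSeries Qb) * (z : LaurentSeries Qb) = _
      rw [hu]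
      rfl
  intro x _
  obtain ⟨z, hz, hzx⟩ := key x (hb2 x x.2)
  rwa [Subtype.ext hzx] at hz

/-- **DEG**. -/
theorem stmt_Deg : Stmt_Deg := by
  intro N ℓ _ _ hℓ
  letI := algebraAlong (heckeBetaBar Qb N ℓ)
  have htop : Submodule.span (FF N)
      (Set.range fun i : Fin (ℓ + 1) => S24.jF (N * ℓ) ^ (i : ℕ)) = ⊤ :=
    top_le_iff.mp (Deg_top_le N ℓ hℓ)
  refine ⟨?_, ?_⟩
  · show Module.Finite (FF N) (FF (N * ℓ))
    exact Module.finite_def.mpr
      ⟨(Set.finite_range _).toFinset, by rw [Set.Finite.coe_toFinset, htop]⟩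
  · show Module.finrank (FF N) (FF (N * ℓ)) ≤ ℓ + 1
    have h := finrank_range_le_card (R := FF N)
      (fun i : Fin (ℓ + 1) => S24.jF (N * ℓ) ^ (i : ℕ))
    rw [Set.finrank, htop, finrank_top, Fintype.card_fin] at h
    exact h

end Fermat.Agent.FF19.Q
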