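import Fermat.Agent.FF19.Q.Interface

/-!
# FF19 / Q : FFQ-EQUIV, the pull-back of divisor classes commutes with intertwined semilinear
automorphisms (`Stmt_Equiv`)
-/

set_option autoImplicit false

noncomputable section

namespace Fermat.Agent.FF19.Q

open AlgebraicCurve

section Equiv

open scoped Pointwise

variable {K F F' : Type*} [Field K] [Field F] [Field F'] [Algebra K F] [Algebra K F']

theorem Equiv_mem_restrictAlong (φ : F →ₐ[K] F') (hφ : φ.toRingHom.IsIntegral) (w : Place K F')
    (f : F) : f ∈ (w.restrictAlong φ hφ).toValuationSubring ↔ φ f ∈ w.toValuationSubring :=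
  Iff.rfl

theorem Equiv_restrictAlong_smul (φ : F →ₐ[K] F') (hφ : φ.toRingHom.IsIntegral)
    {g : SemilinearAut K F} {g' : SemilinearAut K F'}
    (h : SemilinearAut.IntertwinesAlong φ.toRingHom g g') (w : Place K F') :
    (g' • w).restrictAlong φ hφ = g • w.restrictAlong φ hφ := by
  ext1
  ext f
  rw [Equiv_mem_restrictAlong, SemilinearAut.smul_toValuationSubring,
    SemilinearAut.smul_toValuationSubring,
    ValuationSubring.mem_pointwise_smul_iff_inv_smul_mem,
    ValuationSubring.mem_pointwise_smul_iff_inv_smul_mem, Equiv_mem_restrictAlong]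
  have h1 : g'⁻¹ • φ f = φ (g⁻¹ • f) := h.inv f
  rw [h1]

theorem Equiv_ord_smul (φ : F →ₐ[K] F')
    {g : SemilinearAut K F} {g' : SemilinearAut K F'}
    (h : SemilinearAut.IntertwinesAlong φ.toRingHom g g') (w : Place K F') (f : F) :
    (g' • w).ord (φ (g • f)) = w.ord (φ f) := by
  have h1 : g' • φ f = φ (g • f) := h f
  rw [← h1, SemilinearAut.ord_smul]

theorem Equiv_ramificationIndexAlong_smul (φ : F →ₐ[K] F')
    {g : SemilinearAut K F} {g' : SemilinearAut K F'}
    (h : SemilinearAut.IntertwinesAlong φ.toRingHom g g') (w : Place K F') :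
    Place.ramificationIndexAlong φ (g' • w) = Place.ramificationIndexAlong φ w := by
  have hset : {n : ℕ | 0 < n ∧ ∃ f : F, f ≠ 0 ∧ (g' • w).ord (φ f) = n} =
      {n : ℕ | 0 < n ∧ ∃ f : F, f ≠ 0 ∧ w.ord (φ f) = n} := by
    ext n
    constructor
    · rintro ⟨hn, f, hf, hfn⟩
      refine ⟨hn, g⁻¹ • f, by simpa using hf, ?_⟩
      rw [← Equiv_ord_smul φ h w (g⁻¹ • f), smul_inv_smul]
      exact hfn
    · rintro ⟨hn, f, hf, hfn⟩
      refine ⟨hn, g • f, by simpa using hf, ?_⟩
      rw [Equiv_ord_smul φ h w f]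
      exact hfn
  exact congrArg sInf hset

theorem Equiv_pullbackAlong_smul [HasPrincipalDivisors K F'] (φ : F →ₐ[K] F')
    (hφ : φ.toRingHom.IsIntegral) {g : SemilinearAut K F} {g' : SemilinearAut K F'}
    (h : SemilinearAut.IntertwinesAlong φ.toRingHom g g') (D : Divisor K F) :
    Divisor.pullbackAlong φ hφ (g • D) = g' • Divisor.pullbackAlong φ hφ D := by
  ext w
  rw [Divisor.pullbackAlong_apply, SemilinearAut.divisor_smul_apply,
    SemilinearAut.divisor_smul_apply, Divisor.pullbackAlong_apply,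
    Equiv_restrictAlong_smul φ hφ h.inv, Equiv_ramificationIndexAlong_smul φ h.inv]

end Equiv

theorem stmt_Equiv : Stmt_Equiv := by
  intro K F F' _ _ _ _ _ _ φ hφ hFI g g' h x
  obtain ⟨D, rfl⟩ := Pic0.mk_surjective x
  rw [SemilinearAut.pic0_smul_mk, pb_mk, pb_mk, SemilinearAut.pic0_smul_mk]
  refine congrArg Pic0.mk (Subtype.ext ?_)
  rw [coe_degZeroPb, SemilinearAut.coe_degZeroSMulHom, SemilinearAut.coe_degZeroSMulHom,
    coe_degZeroPb]
  exact Equiv_pullbackAlong_smul φ hφ h D

end Fermat.Agent.FF19.Q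

end
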