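import Fermat.Agent.RED.Interface3
import Fermat.Agent.S27.Defs

/-!
# FF19 (S19), block Q [LEVEL] : interface

`β_r : FF N → FF (N r)`, `f(q) ↦ f(q^r)` (`heckeBetaBar`), `r` prime.  The pull-back of divisor
classes `β_r^* : J₀(N) → J₀(N r)` is `G_ℚ`-equivariant and injective on `ℓ`-power torsion, for
every prime `ℓ`.

Proof of the injectivity (no ramification theory).  Let `x = [D]`, `ℓ x = 0`, `β^* x = 0`:
`ℓ D = div h`, `β^* D = div g₀`, so `g₀ ^ ℓ / β h` has no zero and no pole, it is a constant, and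
after scaling `g ^ ℓ = β h` (KUM).  The order of `h` at the cusp `∞` is its `q`-order (CUSP), so
`ℓ ∣ ord_q h` and `h = h₁ ^ ℓ` in `ℚ̄((q))` (`S36.Base.stmt_RootL`); so `g = ζ h₁(q^r) ∈ ℚ̄((q^r))`.
If `h` is not an `ℓ`-th power in `FF N` then `1, g, …, g ^ (ℓ - 1)` are independent over
`β (FF N)`; `1, j, …, j ^ (r - 1)` are independent over `ℚ̄((q^r))` (IND: the `q`-orders are
distinct mod `r`); so the `g ^ a j ^ b` are independent over `β (FF N)`:
`ℓ r ≤ [FF (N r) : β (FF N)] ≤ r + 1` (DEG), contradiction (CORE).  So `h = h₁ ^ ℓ` in `FF N`,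
`D = div h₁`, `x = 0`.
-/

set_option autoImplicit false

noncomputable section

namespace Fermat.Agent.FF19.Q

open AlgebraicCurve ModularCurve Polynomial IntermediateField
open Fermat.Agent.RED (Qb GQ FF Pl gal)

/-! ### the pull-back of divisor classes -/

section Abstract

variable {K F F' : Type*} [Field K] [Field F] [Field F'] [Algebra K F] [Algebra K F']
  [HasPrincipalDivisors K F']

/-- pull-back of divisors of degree zero. -/
def degZeroPb (φ : F →ₐ[K] F') (hφ : φ.toRingHom.IsIntegral)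
    (hFI : FundamentalIdentityAlong K φ hφ) :
    Divisor.degZero (K := K) (F := F) →+ Divisor.degZero (K := K) (F := F') :=
  ((Divisor.pullbackAlong φ hφ).domRestrict (Divisor.degZero (K := K) (F := F))).codRestrict _
    (fun D => Divisor.pullbackAlong_mem_degZero φ hφ hFI D.2)

@[simp]
theorem coe_degZeroPb (φ : F →ₐ[K] F') (hφ : φ.toRingHom.IsIntegral)
    (hFI : FundamentalIdentityAlong K φ hφ) (D : Divisor.degZero (K := K) (F := F)) :
    (degZeroPb φ hφ hFI D : Divisor K F') = Divisor.pullbackAlong φ hφ (D : Divisor K F) :=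
  rfl

/-- pull-back of divisor classes of degree zero. -/
def pb (φ : F →ₐ[K] F') (hφ : φ.toRingHom.IsIntegral)
    (hFI : FundamentalIdentityAlong K φ hφ) : Pic0 K F →+ Pic0 K F' :=
  QuotientAddGroup.map _ _ (degZeroPb φ hφ hFI) (by
    rintro ⟨D, hD0⟩ hD
    simp only [AddSubgroup.mem_addSubgroupOf] at hD ⊢
    exact Divisor.isPrincipal_pullbackAlong φ hφ hD)

theorem pb_mk (φ : F →ₐ[K] F') (hφ : φ.toRingHom.IsIntegral)
    (hFI : FundamentalIdentityAlong K φ hφ) (D : Divisor.degZero (K := K) (F := F)) :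
    pb φ hφ hFI (Pic0.mk D) = Pic0.mk (degZeroPb φ hφ hFI D) :=
  rfl

end Abstract

/-! ### the leaves -/

/-- EQUIV: the pull-back commutes with intertwined semilinear automorphisms. -/
def Stmt_Equiv : Prop :=
  ∀ (K F F' : Type) [Field K] [Field F] [Field F'] [Algebra K F] [Algebra K F']
    [HasPrincipalDivisors K F'] (φ : F →ₐ[K] F') (hφ : φ.toRingHom.IsIntegral)
    (hFI : FundamentalIdentityAlong K φ hφ) (g : SemilinearAut K F) (g' : SemilinearAut K F'),
    SemilinearAut.IntertwinesAlong φ.toRingHom g g' →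
    ∀ x : Pic0 K F, pb φ hφ hFI (g • x) = g' • pb φ hφ hFI x

/-- KUM: an `ℓ`-torsion class killed by the pull-back gives a Kummer generator upstairs. -/
def Stmt_Kum : Prop :=
  ∀ (K F F' : Type) [Field K] [IsAlgClosed K] [CharZero K] [Field F] [Field F'] [Algebra K F]
    [Algebra K F'] [HasPrincipalDivisors K F'] (φ : F →ₐ[K] F') (hφ : φ.toRingHom.IsIntegral)
    (hFI : FundamentalIdentityAlong K φ hφ), S27.IsFF K F' →
    ∀ ℓ : ℕ, 0 < ℓ → ∀ x : Pic0 K F, (ℓ : ℤ) • x = 0 → pb φ hφ hFI x = 0 →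
      ∃ (D : Divisor K F) (h : F) (g : F'), h ≠ 0 ∧ (∀ v : Place K F, (ℓ : ℤ) * D v = v.ord h) ∧
        g ^ ℓ = φ h ∧ ((∃ h₁ : F, h₁ ^ ℓ = h) → x = 0)

/-- IND: `1, y, …, y ^ (r - 1)` are linearly independent over `K((q^r))` if `ord_q y = -1`. -/
def Stmt_Ind : Prop :=
  ∀ (K : Type) [Field K] (r : ℕ) [NeZero r] (y : LaurentSeries K), y.order = -1 →
    ∀ a : Fin r → LaurentSeries K, ∑ i, qExpand K r (a i) * y ^ (i : ℕ) = 0 → ∀ i, a i = 0

/-- DEG: `[FF (N r) : β (FF N)] ≤ r + 1` (all `N`; `RED.stmt_DEGle` is the case `r ∤ N`). -/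
def Stmt_Deg : Prop :=
  ∀ (N r : ℕ) [NeZero N] [NeZero r], r.Prime →
    FiniteAlong Qb (heckeBetaBar Qb N r) ∧ finrankAlong Qb (heckeBetaBar Qb N r) ≤ r + 1

/-- CUSP: the cusp `∞`: a place whose order function is the `q`-order. -/
def Stmt_Cusp : Prop :=
  ∀ (N : ℕ) [NeZero N], ∃ P : Pl N, ∀ f : FF N, f ≠ 0 → P.ord f = (f : LaurentSeries Qb).order

/-- CORE: the degree count. -/
def Stmt_Core : Prop :=
  ∀ (N r ℓ : ℕ) [NeZero N] [NeZero r], r.Prime → ℓ.Prime → ∀ (h : FF N) (g : FF (N * r)), h ≠ 0 →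
    (ℓ : ℤ) ∣ (h : LaurentSeries Qb).order → g ^ ℓ = heckeBetaBar Qb N r h →
    ∃ h₁ : FF N, h₁ ^ ℓ = h

/-! ### the output of the block -/

/-- a `G_ℚ`-equivariant homomorphism `J₀(N) → J₀(M)`, injective on `ℓ`-power torsion. -/
def IsLevelMap (N M : ℕ) (f : JZero N →+ JZero M) : Prop :=
  (∀ (σ : GQ) (x : JZero N), f (σ • x) = σ • f x) ∧
    ∀ ℓ : ℕ, ℓ.Prime → ∀ (k : ℕ) (x : JZero N), ((ℓ : ℤ) ^ k) • x = 0 → f x = 0 → x = 0

/-- STEP: one prime. -/
def Stmt_Step : Prop :=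
  ∀ (N r : ℕ) [NeZero N], r.Prime → ∃ f : JZero N →+ JZero (N * r), IsLevelMap N (N * r) f

/-- LEVEL (output of block Q). -/
def Stmt_Level : Prop :=
  ∀ (N M : ℕ), N ≠ 0 → M ≠ 0 → N ∣ M → ∃ f : JZero N →+ JZero M, IsLevelMap N M f

end Fermat.Agent.FF19.Q
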