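/-
TEAM FF19 -> S19, block Q (architect helper5), leaf FFQ-IND (helper8, task 1808):
`1, y, …, y ^ (r - 1)` are linearly independent over `K((q^r))` if `ord_q y = -1`.
-/
import Fermat.Agent.FF19.Q.Interface

set_option autoImplicit false

noncomputable section

namespace Fermat.Agent.FF19.Q

open ModularCurve

/-- the order of `f(q^r)` is divisible by `r`. -/
theorem Ind_dvd_order (K : Type) [Field K] (r : ℕ) [NeZero r] (f : LaurentSeries K) :
    (r : ℤ) ∣ (qExpand K r f).order := by
  by_cases h : qExpand K r f = 0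
  · rw [h, HahnSeries.order_zero]
    exact dvd_zero _
  · by_contra hd
    exact h (HahnSeries.coeff_order_eq_zero.1 (qExpand_coeff_of_not_dvd r f hd))

/-- IND. -/
theorem stmt_Ind : Stmt_Ind := by
  intro K _ r _ y hy a hsum
  classical
  have hy0 : y ≠ 0 := by
    rintro rfl
    rw [HahnSeries.order_zero] at hy
    omega
  have hr : (0 : ℤ) < r := by exact_mod_cast Nat.pos_of_ne_zero (NeZero.ne r)
  set T : Fin r → LaurentSeries K := fun i => qExpand K r (a i) * y ^ (i : ℕ) with hT
  have hne : ∀ i, a i ≠ 0 → T i ≠ 0 := fun i hi =>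
    mul_ne_zero ((map_ne_zero (qExpand K r)).2 hi) (pow_ne_zero _ hy0)
  have hord : ∀ i, a i ≠ 0 → ∃ k : ℤ, (T i).order = r * k - (i : ℕ) := by
    intro i hi
    obtain ⟨k, hk⟩ := Ind_dvd_order K r (a i)
    refine ⟨k, ?_⟩
    rw [hT]
    simp only
    rw [HahnSeries.order_mul ((map_ne_zero (qExpand K r)).2 hi) (pow_ne_zero _ hy0),
      HahnSeries.order_pow, hy, hk]
    simp
    ring
  by_contra hcon
  push Not at hcon
  obtain ⟨i₁, hi₁⟩ := hcon
  have hS : (Finset.univ.filter fun i => a i ≠ 0).Nonempty :=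
    ⟨i₁, Finset.mem_filter.2 ⟨Finset.mem_univ _, hi₁⟩⟩
  obtain ⟨i₀, hi₀, hmin⟩ := Finset.exists_min_image _ (fun i => (T i).order) hS
  have hi₀' : a i₀ ≠ 0 := (Finset.mem_filter.1 hi₀).2
  have hc : (∑ i, T i).coeff (T i₀).order = (T i₀).coeff (T i₀).order := by
    rw [HahnSeries.coeff_sum]
    refine Finset.sum_eq_single i₀ (fun i _ hi => ?_) (fun h => absurd (Finset.mem_univ _) h)
    by_cases hai : a i = 0
    · have : T i = 0 := by
        rw [hT]
        simp only
        rw [hai, map_zero, zero_mul]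
      rw [this, HahnSeries.coeff_zero]
    · apply HahnSeries.coeff_eq_zero_of_lt_order
      have hle := hmin i (Finset.mem_filter.2 ⟨Finset.mem_univ _, hai⟩)
      refine lt_of_le_of_ne hle fun heq => hi ?_
      obtain ⟨k, hk⟩ := hord i hai
      obtain ⟨k₀, hk₀⟩ := hord i₀ hi₀'
      rw [hk, hk₀] at heq
      have h1 : ((i : ℕ) : ℤ) - ((i₀ : ℕ) : ℤ) = r * (k - k₀) := by linarith
      have h2 : ((i : ℕ) : ℤ) < r := by exact_mod_cast i.2
      have h3 : ((i₀ : ℕ) : ℤ) < r := by exact_mod_cast i₀.2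
      have h4 : (0 : ℤ) ≤ ((i : ℕ) : ℤ) := Int.natCast_nonneg _
      have h5 : (0 : ℤ) ≤ ((i₀ : ℕ) : ℤ) := Int.natCast_nonneg _
      have h6 : k - k₀ = 0 := by
        by_contra hk0
        rcases lt_or_gt_of_ne hk0 with h | h
        · have : (r : ℤ) * (k - k₀) ≤ r * (-1) := mul_le_mul_of_nonneg_left (by omega) hr.le
          linarith
        · have : (r : ℤ) * 1 ≤ r * (k - k₀) := mul_le_mul_of_nonneg_left (by omega) hr.le
          linarith
      rw [h6, mul_zero] at h1
      apply Fin.ext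
      omega
  rw [hsum, HahnSeries.coeff_zero] at hc
  exact hne i₀ hi₀' (HahnSeries.coeff_order_eq_zero.1 hc.symm)

end Fermat.Agent.FF19.Q

end
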