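import Fermat.Agent.FF19.Q.Interface
import Fermat.Agent.S27.R0

/-!
# FF19 (S19), block Q [LEVEL] : KUM

An `ℓ`-torsion class killed by the pull-back gives `g ^ ℓ = φ h`.
-/

set_option autoImplicit false

noncomputable section

namespace Fermat.Agent.FF19.Q

open AlgebraicCurve

/-- a class is zero iff the divisor is principal. -/
theorem Kum_mk_eq_zero {K F : Type} [Field K] [Field F] [Algebra K F]
    (D : Divisor.degZero (K := K) (F := F)) :
    Pic0.mk D = 0 ↔ Divisor.IsPrincipal (D : Divisor K F) := by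
  unfold Pic0.mk
  rw [QuotientAddGroup.eq_zero_iff, AddSubgroup.mem_addSubgroupOf]
  rfl

theorem Kum_ord_pow {K F : Type} [Field K] [Field F] [Algebra K F] (v : Place K F) (f : F) (n : ℕ) :
    v.ord (f ^ n) = (n : ℤ) * v.ord f := by
  rw [← zpow_natCast, v.ord_zpow]

/-- **KUM** -/
theorem stmt_Kum : Stmt_Kum := by
  intro K F F' _ _ _ _ _ _ _ _ φ hφ hFI hFF ℓ hℓ x hx hpb
  obtain ⟨D, rfl⟩ := Pic0.mk_surjective x
  have hℓ0 : (ℓ : ℤ) ≠ 0 := by exact_mod_cast hℓ.ne'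
  -- (1)
  have h1 : Divisor.IsPrincipal (((ℓ : ℤ) • D : Divisor.degZero (K := K) (F := F)) : Divisor K F) := by
    rw [← Kum_mk_eq_zero]
    exact hx
  obtain ⟨h, hh0, hh⟩ := h1
  have hh' : ∀ v : Place K F, (ℓ : ℤ) * (D : Divisor K F) v = v.ord h := by
    intro v
    rw [← hh v]
    simp
  -- (2)
  rw [pb_mk, Kum_mk_eq_zero] at hpb
  obtain ⟨g₀, hg0, hg⟩ := hpb
  have hφh : φ h ≠ 0 := by
    rw [Ne, map_eq_zero]; exact hh0
  -- (3)
  set u : F' := g₀ ^ ℓ / φ h with hu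
  have hu0 : u ≠ 0 := div_ne_zero (pow_ne_zero _ hg0) hφh
  have hord : ∀ w : Place K F', w.ord u = 0 := by
    intro w
    rw [hu, div_eq_mul_inv, w.ord_mul (pow_ne_zero _ hg0) (inv_ne_zero hφh), w.ord_inv,
      Kum_ord_pow, ← hg w, coe_degZeroPb, Divisor.pullbackAlong_apply, Place.ord_restrictAlong φ hφ,
      ← hh']
    ring
  obtain ⟨c, hc⟩ : ∃ c : K, u = algebraMap K F' c := by
    rcases S27.R0.const_or_transcendental (K := K) u with h | h
    · exact h
    · obtain ⟨v, hv⟩ := S27.R0.exists_zero hFF u h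
      rw [hord v] at hv
      exact absurd hv (lt_irrefl _)
  have hc0 : c ≠ 0 := by
    rintro rfl
    rw [map_zero] at hc
    exact hu0 hc
  obtain ⟨d, hd⟩ := IsAlgClosed.exists_pow_nat_eq c hℓ
  have hd0 : d ≠ 0 := by
    rintro rfl
    rw [zero_pow hℓ.ne'] at hd
    exact hc0 hd.symm
  have hd0' : algebraMap K F' d ≠ 0 := by
    rw [Ne, map_eq_zero]; exact hd0
  refine ⟨(D : Divisor K F), h, g₀ / algebraMap K F' d, hh0, hh', ?_, ?_⟩
  · rw [div_pow, ← map_pow, hd, ← hc, hu]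
    field_simp
  · rintro ⟨h₁, rfl⟩
    rw [Kum_mk_eq_zero]
    have hh₁ : h₁ ≠ 0 := by
      rintro rfl
      rw [zero_pow hℓ.ne'] at hh0
      exact hh0 rfl
    refine ⟨h₁, hh₁, fun v => ?_⟩
    have := hh' v
    rw [Kum_ord_pow] at this
    exact mul_left_cancel₀ hℓ0 this

end Fermat.Agent.FF19.Q

end

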