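import Fermat.Agent.FF19.Q.Interface
import Fermat.Agent.FF19.Top.Interface

/-!
# FF19 (S19), block Q : adapter `Q.Stmt_Level → Top.Stmt_Q` (and the variant for any multiple)
-/

set_option autoImplicit false

noncomputable section

namespace Fermat.Agent.FF19.Q

open AlgebraicCurve ModularCurve
open Fermat.Agent.RED (Qb GQ FF Pl gal)

/-- a level map restricted to the `l ^ k`-torsion. -/
def torMap {N M : ℕ} (f : JZero N →+ JZero M) (l k : ℕ) : Top.Tor N l k →+ Top.Tor M l k where
  toFun x := ⟨f (x : JZero N), by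
    have h := x.2
    rw [Submodule.mem_torsionBy_iff] at h ⊢
    rw [← map_zsmul, h, map_zero]⟩
  map_zero' := Subtype.ext (map_zero f)
  map_add' x y := Subtype.ext (map_add f (x : JZero N) (y : JZero N))

theorem torMap_spec {N M : ℕ} {f : JZero N →+ JZero M} (hf : IsLevelMap N M f) (l k : ℕ)
    (hl : l.Prime) : Function.Injective (torMap f l k) ∧
      ∀ σ x, torMap f l k (Top.actT N l k σ x) = Top.actT M l k σ (torMap f l k x) := by
  refine ⟨?_, fun σ x => Subtype.ext (hf.1 σ (x : JZero N))⟩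
  rw [injective_iff_map_eq_zero]
  intro x hx
  have h := x.2
  rw [Submodule.mem_torsionBy_iff] at h
  exact Subtype.ext (hf.2 l hl k (x : JZero N) h (congrArg Subtype.val hx))

/-- the general form: any multiple `M` of `N`. -/
theorem torLevel (h : Stmt_Level) (N M l k : ℕ) (hN : N ≠ 0) (hM : M ≠ 0) (hNM : N ∣ M)
    (hl : l.Prime) : ∃ j : Top.Tor N l k →+ Top.Tor M l k, Function.Injective j ∧
      ∀ σ x, j (Top.actT N l k σ x) = Top.actT M l k σ (j x) := by
  obtain ⟨f, hf⟩ := h N M hN hM hNM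
  exact ⟨torMap f l k, torMap_spec hf l k hl⟩

theorem stmt_Q (h : Stmt_Level) : Top.Stmt_Q := by
  intro N r l k _ hr hl _
  exact torLevel h N (N * r ^ 2) l k (NeZero.ne N)
    (Nat.mul_ne_zero (NeZero.ne N) (pow_ne_zero 2 hr.ne_zero)) (dvd_mul_right _ _) hl

end Fermat.Agent.FF19.Q
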