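import Fermat.Agent.FF19.Q.Step
import Fermat.Agent.FF19.Q.ToTop
import Fermat.Agent.FF19.Q.Equiv
import Fermat.Agent.FF19.Q.Kum
import Fermat.Agent.FF19.Q.Ind
import Fermat.Agent.FF19.Q.Deg
import Fermat.Agent.FF19.Q.Cusp
import Fermat.Agent.FF19.Q.Core

/-!
# FF19 (S19), block Q [LEVEL] : everything, unconditionally
-/

set_option autoImplicit false

namespace Fermat.Agent.FF19.Q

theorem all_Core : Stmt_Core := stmt_Core stmt_Ind stmt_Deg

theorem all_Step : Stmt_Step := stmt_Step stmt_Equiv stmt_Kum stmt_Cusp all_Core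

/-- for `N ∣ M` there is a `G_ℚ`-equivariant homomorphism `J₀(N) → J₀(M)`, injective on `ℓ`-power
torsion for every prime `ℓ`. -/
theorem all_Level : Stmt_Level := stmt_Level all_Step

/-- the contract of block Q in `Top/Interface.lean`. -/
theorem all_Q : Top.Stmt_Q := stmt_Q all_Level

end Fermat.Agent.FF19.Q
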