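import Fermat.Agent.FF19.Q.All
import Fermat.Agent.FF19.Top.Pkg

/-!
# FF19 (S19), block Q : the contract `Top.Stmt_Q2` of `Top/Pkg.lean`
-/

set_option autoImplicit false

namespace Fermat.Agent.FF19.Q

theorem all_Q2 : Top.Stmt_Q2 := by
  intro N r l k _ hr _ hl _
  exact torLevel all_Level N (N * r) l k (NeZero.ne N)
    (Nat.mul_ne_zero (NeZero.ne N) hr.ne_zero) (dvd_mul_right _ _) hl

end Fermat.Agent.FF19.Q
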