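import Fermat.Agent.FF19.Q.Interface
import Fermat.Agent.RED.AllPre
import Fermat.Prelude.Thm_ModularCurve_coeffMap_qExpand

/-!
# FF19 (S19), block Q : assembly (STEP and LEVEL from the leaves)
-/

set_option autoImplicit false

noncomputable section

namespace Fermat.Agent.FF19.Q

open AlgebraicCurve ModularCurve Polynomial IntermediateField
open Fermat.Agent.RED (Qb GQ FF Pl gal)

/-- the Galois action commutes with `β`. -/
theorem Step_intertwines (N r : ℕ) [NeZero N] [NeZero r] (σ : GQ) :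
    SemilinearAut.IntertwinesAlong (heckeBetaBar Qb N r).toRingHom (gal N σ) (gal (N * r) σ) := by
  intro x
  apply Subtype.ext
  show coeffMap (σ : Qb →+* Qb) (qExpand Qb r (x : LaurentSeries Qb)) =
    qExpand Qb r (coeffMap (σ : Qb →+* Qb) (x : LaurentSeries Qb))
  exact coeffMap_qExpand _ r _

theorem Step_isFF (M : ℕ) [NeZero M] : S27.IsFF Qb (FF M) :=
  ⟨S24.jF M, S24.DegBd.transcendental_jF M, (S24.finrank_FF_le M).1⟩

/-- reduction from `ℓ ^ k`-torsion to `ℓ`-torsion. -/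
theorem Step_pow {X Y : Type*} [AddCommGroup X] [AddCommGroup Y] (f : X →+ Y) (ℓ : ℕ)
    (h : ∀ x : X, (ℓ : ℤ) • x = 0 → f x = 0 → x = 0) (k : ℕ) :
    ∀ x : X, ((ℓ : ℤ) ^ k) • x = 0 → f x = 0 → x = 0 := by
  induction k with
  | zero =>
    intro x hx _
    simpa using hx
  | succ k ih =>
    intro x hx hfx
    refine h x (ih _ ?_ ?_) hfx
    · rw [smul_smul, ← pow_succ]; exact hx
    · rw [map_zsmul, hfx, smul_zero]

theorem stmt_Step (hE : Stmt_Equiv) (hK : Stmt_Kum) (hC : Stmt_Cusp) (hO : Stmt_Core) :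
    Stmt_Step := by
  intro N r _ hr
  have : NeZero r := ⟨hr.ne_zero⟩
  obtain ⟨-, hβ, hP, -, hFI, -⟩ := RED.all_TH N r
  refine ⟨pb (heckeBetaBar Qb N r) hβ hFI, fun σ x => ?_, fun ℓ hℓ k => ?_⟩
  · exact hE Qb (FF N) (FF (N * r)) (heckeBetaBar Qb N r) hβ hFI (gal N σ) (gal (N * r) σ)
      (Step_intertwines N r σ) x
  · refine Step_pow _ ℓ (fun x hx hfx => ?_) k
    obtain ⟨D, h, g, hh, hD, hg, hfin⟩ := hK Qb (FF N) (FF (N * r)) (heckeBetaBar Qb N r) hβ hFI
      (Step_isFF (N * r)) ℓ hℓ.pos x hx hfx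
    obtain ⟨P, hPord⟩ := hC N
    exact hfin (hO N r ℓ hr hℓ h g hh ⟨D P, by rw [← hPord h hh, hD P]⟩ hg)

theorem IsLevelMap.comp {N M L : ℕ} {f : JZero N →+ JZero M} {g : JZero M →+ JZero L}
    (hf : IsLevelMap N M f) (hg : IsLevelMap M L g) : IsLevelMap N L (g.comp f) := by
  refine ⟨fun σ x => ?_, fun ℓ hℓ k x hx hgf => ?_⟩
  · rw [AddMonoidHom.comp_apply, AddMonoidHom.comp_apply, hf.1, hg.1]
  · refine hf.2 ℓ hℓ k x hx (hg.2 ℓ hℓ k (f x) ?_ hgf)
    rw [← map_zsmul, hx, map_zero]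

theorem IsLevelMap.id (N : ℕ) : IsLevelMap N N (AddMonoidHom.id _) :=
  ⟨fun _ _ => rfl, fun _ _ _ _ _ h => h⟩

theorem stmt_Level (hS : Stmt_Step) : Stmt_Level := by
  have key : ∀ m : ℕ, m ≠ 0 → ∀ N M : ℕ, N ≠ 0 → M = N * m →
      ∃ f : JZero N →+ JZero M, IsLevelMap N M f := by
    intro m
    induction m using Nat.recOnMul with
    | zero => intro h; exact absurd rfl h
    | one =>
      intro _ N M _ hM
      obtain rfl : M = N := by rw [hM, mul_one]
      exact ⟨_, IsLevelMap.id M⟩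
    | prime p hp =>
      intro _ N M hN hM
      subst hM
      have : NeZero N := ⟨hN⟩
      exact hS N p hp
    | mul a b iha ihb =>
      intro hab N M hN hM
      have ha : a ≠ 0 := left_ne_zero_of_mul hab
      have hb : b ≠ 0 := right_ne_zero_of_mul hab
      obtain ⟨f, hf⟩ := iha ha N (N * a) hN rfl
      obtain ⟨g, hg⟩ := ihb hb (N * a) M (Nat.mul_ne_zero hN ha) (by rw [hM, mul_assoc])
      exact ⟨g.comp f, hf.comp hg⟩
  intro N M hN hM hNM
  obtain ⟨m, rfl⟩ := hNM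
  exact key m (right_ne_zero_of_mul hM) N _ hN rfl

end Fermat.Agent.FF19.Q
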